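import Fermat.Agent.S38.IA.Spec5

/-!
# Row S59, cell LO, sub-row LO-IA (helper405): the IA-core in `ρ̄`-form at `p ∈ {3, 5}`

Two Props, the inputs of the W-TOP `pivotW35_of` (`PivotTop.lean`):

* `IACoreFlat35Statement` : the text of `S38.IA.IACore5Statement` with `p = 3 ∨ p = 5` instead of
  `5 ≤ p` (`ρ̄` flat at `p`, level `ribetLevel p Smin Piv` prime to `p`);
* `IACoreSord35Statement` : the same for `ρ̄` strictly ordinary and NOT flat at `p`, at the level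
  `ribetLevel p Smin Piv * p`.

Both are instances of Ribet's theorem (level lowering at a pivot), hence TRUE.
`iaCoreFlat35_of` : the flat Prop follows from `IACoreStatement` (all `p`), and from the statement
for `5 ≤ p` together with the statement at `p = 3`.
-/

set_option autoImplicit false

open Polynomial IsLocalRing

namespace Fermat.Agent.S59.LO.H405

open Fermat.Agent.S59.Arch Fermat.Agent.S38.IA

/-- **IA-CORE, flat case, `p ∈ {3, 5}`.** -/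
def IACoreFlat35Statement : Prop :=
  ∀ (p : ℕ) [Fact p.Prime] (_hp : p = 3 ∨ p = 5)
    (𝒪 : Type) [CommRing 𝒪] [IsDomain 𝒪] [IsDiscreteValuationRing 𝒪]
    [IsAdicComplete (maximalIdeal 𝒪) 𝒪] [Finite (ResidueField 𝒪)] [CharZero 𝒪]
    (ρbar : ResidualGaloisRep (ResidueField 𝒪)) (Smin : Finset ℕ)
    (_h : ResidualHyp p 𝒪 ρbar Smin)
    (_hflat : (GaloisRepAdic.ofResidualGaloisRep ρbar).IsFlatAt p)
    (Piv : Finset ℕ) (_hPiv : IsPivotSet p ρbar Smin Piv) (_hne : Piv.Nonempty)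
    (_hroots : ∀ q ∈ Piv, ∀ m : ℕ, p ^ m ∣ q - 1 → ∃ ζ : 𝒪, IsPrimitiveRoot ζ (p ^ m))
    (_hmod : ResModular 𝒪 ρbar (ribetLevel p Smin Piv) (Smin ∪ Piv)),
    ∃ q ∈ Piv, ∃ S : Finset ℕ, ResModular 𝒪 ρbar (ribetLevel p Smin (Piv.erase q)) S

/-- **IA-CORE, strictly ordinary non-flat case, `p ∈ {3, 5}`**: the level is
`ribetLevel p Smin Piv * p`. -/
def IACoreSord35Statement : Prop :=
  ∀ (p : ℕ) [Fact p.Prime] (_hp : p = 3 ∨ p = 5)
    (𝒪 : Type) [CommRing 𝒪] [IsDomain 𝒪] [IsDiscreteValuationRing 𝒪]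
    [IsAdicComplete (maximalIdeal 𝒪) 𝒪] [Finite (ResidueField 𝒪)] [CharZero 𝒪]
    (ρbar : ResidualGaloisRep (ResidueField 𝒪)) (Smin : Finset ℕ)
    (_h : ResidualHyp p 𝒪 ρbar Smin)
    (_hso : (GaloisRepAdic.ofResidualGaloisRep ρbar).IsStrictOrdinaryAt p)
    (_hnflat : ¬ (GaloisRepAdic.ofResidualGaloisRep ρbar).IsFlatAt p)
    (Piv : Finset ℕ) (_hPiv : IsPivotSet p ρbar Smin Piv) (_hne : Piv.Nonempty)
    (_hroots : ∀ q ∈ Piv, ∀ m : ℕ, p ^ m ∣ q - 1 → ∃ ζ : 𝒪, IsPrimitiveRoot ζ (p ^ m))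
    (_hmod : ResModular 𝒪 ρbar (ribetLevel p Smin Piv * p) (Smin ∪ Piv)),
    ∃ q ∈ Piv, ∃ S : Finset ℕ, ResModular 𝒪 ρbar (ribetLevel p Smin (Piv.erase q) * p) S

/-- The flat Prop from the general IA-core. -/
theorem iaCoreFlat35_of_iaCore (h : IACoreStatement) : IACoreFlat35Statement :=
  fun p _ _ 𝒪 _ _ _ _ _ _ ρbar Smin hh hflat Piv hPiv hne hroots hmod =>
    h p 𝒪 ρbar Smin hh hflat Piv hPiv hne hroots hmod

/-- **IA-CORE at `p = 3`, flat case** (the missing half of `IACoreFlat35Statement`). -/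
def IACoreFlat3Statement : Prop :=
  ∀ (𝒪 : Type) [CommRing 𝒪] [IsDomain 𝒪] [IsDiscreteValuationRing 𝒪]
    [IsAdicComplete (maximalIdeal 𝒪) 𝒪] [Finite (ResidueField 𝒪)] [CharZero 𝒪]
    (ρbar : ResidualGaloisRep (ResidueField 𝒪)) (Smin : Finset ℕ)
    (_h : ResidualHyp 3 𝒪 ρbar Smin)
    (_hflat : (GaloisRepAdic.ofResidualGaloisRep ρbar).IsFlatAt 3)
    (Piv : Finset ℕ) (_hPiv : IsPivotSet 3 ρbar Smin Piv) (_hne : Piv.Nonempty)
    (_hroots : ∀ q ∈ Piv, ∀ m : ℕ, 3 ^ m ∣ q - 1 → ∃ ζ : 𝒪, IsPrimitiveRoot ζ (3 ^ m))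
    (_hmod : ResModular 𝒪 ρbar (ribetLevel 3 Smin Piv) (Smin ∪ Piv)),
    ∃ q ∈ Piv, ∃ S : Finset ℕ, ResModular 𝒪 ρbar (ribetLevel 3 Smin (Piv.erase q)) S

/-- The flat Prop from the statement for `5 ≤ p` (row HARD) and the statement at `p = 3`. -/
theorem iaCoreFlat35_of_five_three (h5 : IACore5Statement) (h3 : IACoreFlat3Statement) :
    IACoreFlat35Statement := by
  intro p _ hp 𝒪 _ _ _ _ _ _ ρbar Smin hh hflat Piv hPiv hne hroots hmod
  rcases hp with rfl | rfl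
  · exact h3 𝒪 ρbar Smin hh hflat Piv hPiv hne hroots hmod
  · exact h5 5 (le_refl 5) 𝒪 ρbar Smin hh hflat Piv hPiv hne hroots hmod

end Fermat.Agent.S59.LO.H405
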