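import Fermat.Agent.S59.LO.H405.PivotHeckeT
import Fermat.Agent.S38T.IA.Hecke.WireT
import Fermat.Agent.S38.IA.AsmClosed
import Fermat.Agent.S59.TW.H659.PkgMain

/-!
# Row S59, cell LO, sub-row LO-IA = cell (B2): CLOSED  (helper405; wiring only)

    pivotW35_closed : LOW.S39W35Statement → LOW.PivotW35Statement

the deliverable of cell (B2) asked for by the architect (helper239), unconditional:

* the W-TOP `pivotW35_of_open` (`PivotFinal.lean`) and its assembly `pivotW35_of_heckeT`
  (`PivotHeckeT.lean`; Ihara avoidance for both types at `p`: helper546 `S38/H546/CoreT.lean`);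
* the cell HECKE-T `Hecke.iaHecke_T_of_rows` (helper3, `S38T/IA/Hecke/WireT.lean`);
* the results of the rows S32/S33 (`TW.H659.pkg`), S23, S30, S34, G4, S35 and S36, on their PLAIN
  tops (the plugs of row HARD on its trunk, `S38/IA/{PkgWired,AsmOpen,AsmClosed}.lean`; no
  statement module `Fermat/Agent/SNN.lean` is imported here).

Nothing unproved in this file.
-/

set_option autoImplicit false

namespace Fermat.Agent.S59.LO.H405

open Fermat.Agent.S59.Arch Fermat.Agent.S38.IA

/-- **The cell HECKE-T, closed**: the Hecke side of Ihara avoidance for both types at `p` and every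
odd prime `p`. -/
theorem iaHeckeT_closed : IAHeckeStatement_T :=
  Hecke.iaHecke_T_of_rows Fermat.Agent.S59.TW.H659.pkg g4_h995 s34Shape494_h995
    s30Statement_h995 (fun M _ => s23Shape_h995 M) s35Statement_h995 s36Statement_h995

/-- The flat IA-core at `p ∈ {3, 5}`, closed. -/
theorem iaCoreFlat35_closed : IACoreFlat35Statement :=
  iaCoreFlat35_of_heckeT iaHeckeT_closed

/-- The strictly ordinary IA-core at `p ∈ {3, 5}`, closed. -/
theorem iaCoreSord35_closed : IACoreSord35Statement :=
  iaCoreSord35_of_heckeT iaHeckeT_closed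

/-- **CELL (B2) OF ROW S59, CLOSED**: the pivot cell from cell (A). -/
theorem pivotW35_closed (hA : LOW.S39W35Statement) : LOW.PivotW35Statement :=
  pivotW35_of_heckeT hA iaHeckeT_closed

end Fermat.Agent.S59.LO.H405
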