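import Fermat.Agent.S59.LO.H405.PivotTop
import Fermat.Agent.S59.H401.DictFinal
import Fermat.Agent.S59.H405.Hyp
import Fermat.Agent.S59.H601.ResidualBC
import Fermat.Agent.S59.H127.FlatAsm
import Fermat.Agent.S59.H686.ResidualDict
import Fermat.Agent.S59.H659.SigmaCond
import Fermat.Agent.S59.H294.ResUnram
import Fermat.Agent.S59.H294.ResFlatFinal
import Fermat.Agent.S59.H461.FlatPeu
import Fermat.Agent.Ribet.H764.TransportS29
import Fermat.Agent.S29.Gate
import Fermat.Agent.S18.Mod.H216.NodeMod
import Fermat.Agent.S18.H438.NodeAlg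

/-!
# Row S59, cell LO, sub-row LO-IA (helper405): the W-TOP with the closed cells plugged in

`pivotW35_of_open : S39W35Statement → IACoreFlat35Statement → IACoreSord35Statement →
  LOW.PivotW35Statement`

(DICT `H401.dict`, GTW `H405.curveResidualHyp`, BC `H601.residualBC`, CR `H127.curveRepStatement`,
RED `H686.residualOfAdic`, COND `H659.sigmaCondStatement`, ResUnram / ResFlat `H294`, FlatPeu
`H461.flatPeu`, (R3'-W) from the plain top of row S29 (`S29.S29_of_nodes` on the two nodes of row
S18; NO statement module is imported here): all on main).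
-/

set_option autoImplicit false

namespace Fermat.Agent.S59.LO.H405

open Fermat.Agent.S59 Fermat.Agent.S59.Arch Fermat.Agent.S59.Arch.LOW

/-- **LO-IA from its open inputs**: S39 in W-form and the two IA-cores in `ρ̄`-form. -/
theorem pivotW35_of_open (h39 : S39W35Statement) (hIAf : IACoreFlat35Statement)
    (hIAs : IACoreSord35Statement) : PivotW35Statement :=
  pivotW35_of Fermat.Agent.S59.H401.dict Fermat.Agent.S59.H405.curveResidualHyp
    Fermat.Agent.S59.H601.residualBC Fermat.Agent.S59.H127.curveRepStatement
    Fermat.Agent.S59.H686.residualOfAdic Fermat.Agent.S59.H659.sigmaCondStatement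
    Fermat.Agent.S59.H294.resUnram Fermat.Agent.S59.H294.resFlat
    Fermat.Agent.S59.H461.flatPeu
    (Fermat.Agent.Ribet.H764.almostAllToWitnessW_of_S29
      (fun hg _ hp _ _ _ φ =>
        Fermat.Agent.S29.S29_of_nodes
          (fun M _ _ _ hℓM A hA => Fermat.Agent.S18.Mod.H216.node_mod M hℓM A hA)
          (fun M => Fermat.Agent.S18.H438.node_alg M) hg hp φ))
    h39 hIAf hIAs

end Fermat.Agent.S59.LO.H405
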