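import Fermat.Agent.S38.H546.CoreT
import Fermat.Agent.S38T.IA.Spec
import Fermat.Agent.S59.LO.H405.PivotFinal

/-!
# Row S59, cell LO, sub-row LO-IA (B2): the pivot cell from the Hecke side  (helper405)

ASSEMBLY of cell (B2).  With
* `S38/H546/CoreT.lean` (helper546): Ihara avoidance for the types `.flat` / `.sord` at `p`, every
  closed leaf plugged in (GAL-T, LOC, BRIDGE, COND, S53, S54), and
* `S59/LO/H405/PivotFinal.lean`: the W-TOP `pivotW35_of_open`,

the frozen Prop `LOW.PivotW35Statement` of the architect follows from cell (A)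
(`LOW.S39W35Statement`) and the Hecke side `IAHeckeStatement_T` frozen by helper3
(`S38T/IA/Spec.lean`), and nothing else:

    pivotW35_of_heckeT : LOW.S39W35Statement → IAHeckeStatement_T → LOW.PivotW35Statement

Nothing unproved in this file.
-/

set_option autoImplicit false

open IsLocalRing

namespace Fermat.Agent.S59.LO.H405

open Fermat.Agent.S59.Arch Fermat.Agent.S38.IA Fermat.Agent.S38.H546

/-- helper3's Hecke side (`S38T/IA/Spec.lean`) gives helper546's (`S38/H546/CoreT.lean`): the two
Props have the same text (the two level functions and the two module predicates are twins). -/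
theorem iaHeckeT_h546_of_heckeT (h : IAHeckeStatement_T) : IAHeckeTStatement_h546 := by
  intro p _ 𝒪 _ _ _ _ _ _ ρbar Smin hh t ht ζ hζ Piv hPiv hmod hmin
  rcases ht with ⟨rfl, hflat⟩ | ⟨rfl, hso, hnf⟩
  · exact h p 𝒪 ρbar Smin hh .flat (Or.inl ⟨rfl, hflat⟩) ζ hζ Piv hPiv hmod hmin
  · exact h p 𝒪 ρbar Smin hh .sord (Or.inr ⟨rfl, hso, hnf⟩) ζ hζ Piv hPiv hmod hmin

/-- The Hecke side at `p ∈ {3, 5}` from helper3's Hecke side. -/
theorem iaHeckeT35_h546_of_heckeT (h : IAHeckeStatement_T) : IAHeckeT35Statement_h546 :=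
  iaHeckeT35_of_heckeT_h546 (iaHeckeT_h546_of_heckeT h)

/-- The flat IA-core at `p ∈ {3, 5}` from the Hecke side. -/
theorem iaCoreFlat35_of_heckeT (h : IAHeckeStatement_T) : IACoreFlat35Statement :=
  iaCoreFlat35_of_heckeT35_h546 (iaHeckeT35_h546_of_heckeT h)

/-- The strictly ordinary IA-core at `p ∈ {3, 5}` from the Hecke side. -/
theorem iaCoreSord35_of_heckeT (h : IAHeckeStatement_T) : IACoreSord35Statement :=
  iaCoreSord35_of_heckeT35_h546 (iaHeckeT35_h546_of_heckeT h)

/-- **Cell (B2) of row S59 from cell (A) and the Hecke side.** -/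
theorem pivotW35_of_heckeT (hA : LOW.S39W35Statement) (h : IAHeckeStatement_T) :
    LOW.PivotW35Statement :=
  pivotW35_of_open hA (iaCoreFlat35_of_heckeT h) (iaCoreSord35_of_heckeT h)

/-- The same with the Hecke side in helper546's shape at `p ∈ {3, 5}`. -/
theorem pivotW35_of_heckeT35_h546 (hA : LOW.S39W35Statement) (h : IAHeckeT35Statement_h546) :
    LOW.PivotW35Statement :=
  pivotW35_of_open hA (iaCoreFlat35_of_heckeT35_h546 h) (iaCoreSord35_of_heckeT35_h546 h)

end Fermat.Agent.S59.LO.H405
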