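import Fermat.Agent.S59.LO.H405.PivotSpec
import Fermat.Agent.S59.Arch.LOW
import Fermat.Agent.S59.Arch.Glue3
import Fermat.Agent.Ribet.H723.TopRoots
import Fermat.Agent.Ribet.H723.TopPiv
import Fermat.Agent.S38.H401.Back
import Fermat.Agent.Ribet.Spec3

/-!
# Row S59, cell LO, sub-row LO-IA (helper405): the W-TOP

`pivotW35_of : [closed cells as Props] → S39W35Statement → IACoreFlat35Statement →
  IACoreSord35Statement → LOW.PivotW35Statement`.

`W` semistable, `p ∈ {3, 5}`, `E[p]` irreducible, `L` squarefree, modular, MINIMAL, every prime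
`r ≠ p` of `L` at which `E[p]` is unramified is a pivot.  Claim: there is no such prime.

* `Ram` / `Piv` = the primes `q ≠ p` of `L` at which `E[p]` is ramified / unramified,
  `Smin = {p} ∪ Ram` is the minimal set (`ResUnram`: `E[p]` is unramified outside `pL`);
* `p ∤ L`: `E[p]` is flat (`ResFlat`), `L = ribetLevel p Smin Piv`, IA-core (flat);
* `p ∣ L`, `E[p]` flat: `FlatPeu` + S39 give the level `L / p`, against minimality;
* `p ∣ L`, `E[p]` not flat: `W` is multiplicative at `p` (`CurveRep.flat` + RED), so `ρ̄` is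
  strictly ordinary (`CurveRep.ord` + RED), `L = ribetLevel p Smin Piv * p`, IA-core (sord);
* coefficients: DICT with roots of unity (helper723), `ResidualHyp` (cell GTW), pivots by base
  change of scalars; BACK: helper401's `back401_congr` + (R3'-W).
-/

set_option autoImplicit false
set_option linter.style.haveILetI false
set_option linter.unusedVariables false

open Polynomial IsLocalRing
open scoped WeierstrassCurve.Affine

namespace Fermat.Agent.S59.LO.H405

open Fermat.Agent.S59.Arch Fermat.Agent.S59.Arch.LOW Fermat.Agent.S59.H934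
open Fermat.Agent.S38.IA Fermat.Agent.Ribet.Spec

/-! ## Arithmetic of Ribet's level -/

/-- Removing a pivot divides the level by it. -/
theorem ribetLevel_eq_mul_erase405 (p : ℕ) (Smin : Finset ℕ) {Piv : Finset ℕ} {q : ℕ}
    (hq : q ∈ Piv) : ribetLevel p Smin Piv = q * ribetLevel p Smin (Piv.erase q) := by
  unfold ribetLevel
  rw [← Finset.mul_prod_erase Piv (fun r => r) hq]
  ring

/-- The level after removing a pivot (flat case). -/
theorem ribetLevel_erase_eq_div405 {p L : ℕ} {Smin Piv : Finset ℕ} {q : ℕ} (hq : q ∈ Piv)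
    (hqpos : 0 < q) (h : ribetLevel p Smin Piv = L) :
    ribetLevel p Smin (Piv.erase q) = L / q := by
  symm
  apply Nat.div_eq_of_eq_mul_right hqpos
  rw [← h]
  exact ribetLevel_eq_mul_erase405 p Smin hq

/-- The level after removing a pivot (ordinary case). -/
theorem ribetLevel_erase_mul_eq_div405 {p L : ℕ} {Smin Piv : Finset ℕ} {q : ℕ} (hq : q ∈ Piv)
    (hqpos : 0 < q) (h : ribetLevel p Smin Piv * p = L) :
    ribetLevel p Smin (Piv.erase q) * p = L / q := by
  symm
  apply Nat.div_eq_of_eq_mul_right hqpos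
  rw [← h, ribetLevel_eq_mul_erase405 p Smin hq]
  ring

/-! ## BACK in W-form -/

/-- **BACK-W**: residual modularity in the sense of row S59 gives residual modularity in the
sense of the Prelude. -/
theorem backW405 (hR3' : AlmostAllToWitnessWStatement)
    (p : ℕ) [Fact p.Prime] (hp2 : p ≠ 2) (W : WeierstrassCurve ℤ) (hΔ : W.Δ ≠ 0)
    (hirr : W.ModRepIsIrreducible p)
    (hcard : Nat.card (Submodule.torsionBy ℤ
      ((W.map (Int.castRingHom ℚ))⁄(AlgebraicClosure ℚ)).Point p) = p ^ 2)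
    (hker : GaloisFactorsThroughFiniteLevel
      (WeierstrassCurve.Affine.Point.galoisRepModuleEnd (K := AlgebraicClosure ℚ) ℚ
        (W.map (Int.castRingHom ℚ)) p))
    (𝒪 : Type) [CommRing 𝒪] [IsDomain 𝒪] [IsDiscreteValuationRing 𝒪]
    [IsAdicComplete (maximalIdeal 𝒪) 𝒪]
    (ι : ZMod p →+* ResidueField 𝒪) {M : ℕ} (S : Finset ℕ)
    (h : ResModular 𝒪 (curveResidual p W hcard hker ι) M S) :
    W.IsResiduallyModularOfLevel p M := by
  obtain ⟨hM, θ, hθ⟩ := h
  haveI := hM
  obtain ⟨f, 𝔪, S', hf, h𝔪, hp𝔪, hcong⟩ :=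
    Fermat.Agent.S38.H401.back401_congr p W hΔ hirr hcard hker ι S θ hθ
  exact ⟨f, 𝔪, hR3' W p M hΔ Fact.out hp2 (Nat.pos_of_ne_zero (NeZero.ne M)) hirr f 𝔪 S' hf h𝔪
    hp𝔪 hcong⟩

/-! ## The W-TOP -/

/-- **LO-IA, W-TOP.** -/
theorem pivotW35_of (hDICT : DictStatement) (hGTW : CurveResidualHypStatement)
    (hBC : ResidualBCStatement) (hCR : CurveRepStatement) (hRED : ResidualOfAdicStatement)
    (hCOND : SigmaCondStatement) (hU : ResUnramStatement) (hF : ResFlatStatement)
    (hFP : FlatPeuStatement) (hR3' : AlmostAllToWitnessWStatement)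
    (h39 : S39W35Statement) (hIAf : IACoreFlat35Statement) (hIAs : IACoreSord35Statement) :
    PivotW35Statement := by
  classical
  intro p _ hp W hΔ hW hirr hcard hker L hL hres hmin hpiv r₀ hr₀ hr₀L hr₀p hunr₀
  have hpp : p.Prime := Fact.out
  have hp2 : p ≠ 2 := by rcases hp with rfl | rfl <;> decide
  have hL0 : L ≠ 0 := hL.ne_zero
  haveI hLne : NeZero L := ⟨hL0⟩
  set ρFp : ResidualGaloisRep (ZMod p) :=
    (W.map (Int.castRingHom ℚ)).residualGaloisRepOf p hcard hker with hρFp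
  -- the sets
  set Ram : Finset ℕ := L.primeFactors.filter (fun q => q ≠ p ∧ ¬ ρFp.IsUnramifiedAt q)
    with hRam
  set Piv : Finset ℕ := L.primeFactors.filter (fun q => q ≠ p ∧ ρFp.IsUnramifiedAt q)
    with hPivdef
  set Smin : Finset ℕ := insert p Ram with hSmin
  have hRam_mem : ∀ q : ℕ, q ∈ Ram ↔ (q.Prime ∧ q ∣ L) ∧ q ≠ p ∧ ¬ ρFp.IsUnramifiedAt q := by
    intro q
    rw [hRam, Finset.mem_filter, Nat.mem_primeFactors]
    constructor
    · rintro ⟨⟨h1, h2, -⟩, h3⟩
      exact ⟨⟨h1, h2⟩, h3⟩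
    · rintro ⟨⟨h1, h2⟩, h3⟩
      exact ⟨⟨h1, h2, hL0⟩, h3⟩
  have hPiv_mem : ∀ q : ℕ, q ∈ Piv ↔ (q.Prime ∧ q ∣ L) ∧ q ≠ p ∧ ρFp.IsUnramifiedAt q := by
    intro q
    rw [hPivdef, Finset.mem_filter, Nat.mem_primeFactors]
    constructor
    · rintro ⟨⟨h1, h2, -⟩, h3⟩
      exact ⟨⟨h1, h2⟩, h3⟩
    · rintro ⟨⟨h1, h2⟩, h3⟩
      exact ⟨⟨h1, h2, hL0⟩, h3⟩
  have hpRam : p ∉ Ram := fun h => ((hRam_mem p).mp h).2.1 rfl
  have hSerase : Smin.erase p = Ram := by
    rw [hSmin, Finset.erase_insert hpRam]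
  have hdisj : Disjoint Ram Piv := by
    rw [Finset.disjoint_left]
    intro q h1 h2
    exact ((hRam_mem q).mp h1).2.2 ((hPiv_mem q).mp h2).2.2
  have hpS : p ∈ Smin ∪ Piv := Finset.mem_union_left _ (Finset.mem_insert_self _ _)
  have hSminP : ∀ q ∈ Smin, q.Prime := by
    intro q hq
    rcases Finset.mem_insert.mp hq with rfl | h
    · exact hpp
    · exact ((hRam_mem q).mp h).1.1
  have hPivP : ∀ q ∈ Piv, q.Prime := fun q hq => ((hPiv_mem q).mp hq).1.1
  have hSP : ∀ q ∈ Smin ∪ Piv, q.Prime := by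
    intro q hq
    rcases Finset.mem_union.mp hq with h | h
    · exact hSminP q h
    · exact hPivP q h
  have hNS : ∀ q : ℕ, q.Prime → q ∣ L → q ∈ Smin ∪ Piv := by
    intro q hq hqL
    by_cases hqp : q = p
    · rw [hqp]
      exact hpS
    · by_cases hu : ρFp.IsUnramifiedAt q
      · exact Finset.mem_union_right _ ((hPiv_mem q).mpr ⟨⟨hq, hqL⟩, hqp, hu⟩)
      · exact Finset.mem_union_left _
          (Finset.mem_insert_of_mem ((hRam_mem q).mpr ⟨⟨hq, hqL⟩, hqp, hu⟩))
  have hminFp : IsMinSet p ρFp Smin := by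
    refine ⟨Finset.mem_insert_self _ _, hSminP, fun q hq hqp => ⟨fun h => ?_, fun h => ?_⟩⟩
    · rcases Finset.mem_insert.mp h with rfl | h
      · exact absurd rfl hqp
      · exact ((hRam_mem q).mp h).2.2
    · refine Finset.mem_insert_of_mem ((hRam_mem q).mpr ⟨⟨hq, ?_⟩, hqp, h⟩)
      by_contra hqL
      exact h (hU p hp W hΔ hW hirr hcard hker L hL hres q hq hqp hqL)
  have hne : Piv.Nonempty := ⟨r₀, (hPiv_mem r₀).mpr ⟨⟨hr₀, hr₀L⟩, hr₀p, hunr₀⟩⟩
  -- the product of the primes of `L` different from `p`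
  have hprod : ribetLevel p Smin Piv = ∏ q ∈ Ram ∪ Piv, q := by
    unfold ribetLevel
    rw [hSerase, Finset.prod_union hdisj]
  -- coefficients
  obtain ⟨𝒪, i1, i2, i3, i4, i5, i6, ι, χ, hp𝒪, hsplit, hRF, hroots⟩ :=
    Fermat.Agent.Ribet.H723.Top.dictRoots_of_dict hDICT p hp2 W hΔ hW hirr hcard hker L
      (Smin ∪ Piv) hpS hSP hNS hres (Fermat.Agent.Ribet.H723.Top.pivotOrder Piv)
      (Fermat.Agent.Ribet.H723.Top.pivotOrder_pos Piv hPivP)
  set ρbar : ResidualGaloisRep (ResidueField 𝒪) := curveResidual p W hcard hker ι with hρbar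
  have hBCι := hBC p ρFp (ResidueField 𝒪) ι
  have hminbar : IsMinSet p ρbar Smin := by
    refine ⟨hminFp.1, hminFp.2.1, fun q hq hqp => ?_⟩
    rw [hminFp.2.2 q hq hqp]
    exact not_congr (hBCι.1 q hq).symm
  have hRH : ResidualHyp p 𝒪 ρbar Smin :=
    hGTW p hp W hΔ hW hirr hcard hker 𝒪 hp𝒪 ι hsplit Smin hminbar
  have hPiv : IsPivotSet p ρbar Smin Piv := by
    intro q hq
    obtain ⟨⟨hqP, hqL⟩, hqp, hqu⟩ := (hPiv_mem q).mp hq
    obtain ⟨hdvd, hsc⟩ := hpiv q hqP hqL hqp hqu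
    refine ⟨hqP, ?_, hdvd, ?_⟩
    · intro hmem
      rcases Finset.mem_insert.mp hmem with h | h
      · exact hqp h
      · exact ((hRam_mem q).mp h).2.2 hqu
    · intro A hA φ hφ
      obtain ⟨c, hc⟩ := hsc A hA φ hφ
      exact ⟨ι c, Fermat.Agent.Ribet.H723.Top.baseChangeAlong_rho_of_scalar ι ρFp φ c hc⟩
  have hroots' : ∀ q ∈ Piv, ∀ m : ℕ, p ^ m ∣ q - 1 → ∃ ζ : 𝒪, IsPrimitiveRoot ζ (p ^ m) :=
    Fermat.Agent.Ribet.H723.Top.hroots_of_pivotOrder p Piv hroots
  have hmodL : ResModular 𝒪 ρbar L (Smin ∪ Piv) := ⟨hLne, _, hRF⟩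
  by_cases hpL : p ∣ L
  · -- `p` divides the level
    by_cases hflatFp : (GaloisRepAdic.ofResidualGaloisRep ρFp).IsFlatAt p
    · -- flat: remove `p` by S39, against minimality
      have hfin := hFP p hp W hΔ hW hirr hcard hker hflatFp
      exact hmin p hpp hpL (h39 p hp W hΔ hW hirr hfin L hL hpL hres)
    · -- not flat: strictly ordinary
      have hnflat : ¬ (GaloisRepAdic.ofResidualGaloisRep ρbar).IsFlatAt p :=
        fun h => hflatFp (hBCι.2.mp h)
      obtain ⟨ρW⟩ := hCR p hp2 W hΔ hW hirr 𝒪 hp𝒪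
      have hresW : ρW.ρ.residual.IsEquiv ρbar := by
        have h := ρW.residual
        have hι : ρW.ι = ι := Subsingleton.elim _ _
        rw [hι] at h
        exact h
      set bad : Finset ℕ := W.Δ.natAbs.primeFactors with hbad
      have hbadmem : ∀ q : ℕ, q.Prime → ((q : ℤ) ∣ W.Δ ↔ q ∈ bad) := by
        intro q hq
        rw [hbad, Nat.mem_primeFactors, Int.natCast_dvd]
        constructor
        · intro h
          exact ⟨hq, h, Int.natAbs_ne_zero.mpr hΔ⟩
        · intro h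
          exact h.2.1
      have hunrW : ∀ q : ℕ, q.Prime → q ∉ insert p bad → ρW.ρ.IsUnramifiedAt q := by
        intro q hq hqS
        have hqp : q ≠ p := fun h => hqS (h ▸ Finset.mem_insert_self _ _)
        refine ρW.unram q hq (fun hd => hqS ?_) hqp
        exact Finset.mem_insert_of_mem ((hbadmem q hq).mp hd)
      have hunipW : ∀ q ∈ ({p} : Finset ℕ), q.Prime → q ≠ p →
          ρW.ρ.IsUnipotentOnInertiaAt q := by
        intro q hq _ hqp
        exact absurd (Finset.mem_singleton.mp hq) hqp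
      have hred : ∀ t : PType, sigmaCond 𝒪 p t {p} (insert p bad) ρW.ρ →
          sigmaCond 𝒪 p t {p} (insert p bad) (GaloisRepAdic.ofResidualGaloisRep ρbar) :=
        fun t h => hRED 𝒪 (sigmaCond 𝒪 p t {p} (insert p bad))
          (hCOND p hp2 𝒪 hp𝒪 t {p} (insert p bad)).1 ρW.ρ ρbar hresW h
      have hbadp : ¬ W.IsGoodPrimeFor p := by
        intro hgood
        have hfl : ρW.ρ.IsFlatAt p := ρW.flat hgood
        have hcf : sigmaCond 𝒪 p .flat {p} (insert p bad) ρW.ρ :=
          ⟨⟨ρW.det, hfl, hunrW⟩, hunipW⟩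
        exact hnflat (hred .flat hcf).1.2.1
      have hso : ρW.ρ.IsStrictOrdinaryAt p := ρW.ord hbadp
      have hcs : sigmaCond 𝒪 p .sord {p} (insert p bad) ρW.ρ := ⟨⟨ρW.det, hso, hunrW⟩, hunipW⟩
      have hsobar : (GaloisRepAdic.ofResidualGaloisRep ρbar).IsStrictOrdinaryAt p :=
        (hred .sord hcs).1.2.1
      -- the level
      have hlev : ribetLevel p Smin Piv * p = L := by
        rw [hprod]
        have hpnot : p ∉ Ram ∪ Piv := by
          intro h
          rcases Finset.mem_union.mp h with h | h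
          · exact hpRam h
          · exact ((hPiv_mem p).mp h).2.1 rfl
        have h1 : (∏ q ∈ Ram ∪ Piv, q) * p = ∏ q ∈ insert p (Ram ∪ Piv), q := by
          rw [Finset.prod_insert hpnot, mul_comm]
        rw [h1]
        symm
        apply eq_prod_of_primeDivisors hL
        intro q
        rw [Finset.mem_insert, Finset.mem_union, hRam_mem, hPiv_mem]
        constructor
        · rintro (rfl | h | h)
          · exact ⟨hpp, hpL⟩
          · exact h.1
          · exact h.1
        · rintro ⟨hq, hqL⟩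
          by_cases hqp : q = p
          · exact Or.inl hqp
          · by_cases hu : ρFp.IsUnramifiedAt q
            · exact Or.inr (Or.inr ⟨⟨hq, hqL⟩, hqp, hu⟩)
            · exact Or.inr (Or.inl ⟨⟨hq, hqL⟩, hqp, hu⟩)
      have hmod : ResModular 𝒪 ρbar (ribetLevel p Smin Piv * p) (Smin ∪ Piv) := by
        rw [hlev]
        exact hmodL
      obtain ⟨q, hq, S', hS'⟩ :=
        hIAs p hp 𝒪 ρbar Smin hRH hsobar hnflat Piv hPiv hne hroots' hmod
      obtain ⟨⟨hqP, hqL⟩, -, -⟩ := (hPiv_mem q).mp hq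
      rw [ribetLevel_erase_mul_eq_div405 hq hqP.pos hlev] at hS'
      exact hmin q hqP hqL (backW405 hR3' p hp2 W hΔ hirr hcard hker 𝒪 ι S' hS')
  · -- `p` does not divide the level: flat
    have hflatFp := hF p hp W hΔ hW hirr hcard hker L hL hres hpL
    have hflat : (GaloisRepAdic.ofResidualGaloisRep ρbar).IsFlatAt p := hBCι.2.mpr hflatFp
    have hlev : ribetLevel p Smin Piv = L := by
      rw [hprod]
      symm
      apply eq_prod_of_primeDivisors hL
      intro q
      rw [Finset.mem_union, hRam_mem, hPiv_mem]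
      constructor
      · rintro (h | h)
        · exact h.1
        · exact h.1
      · rintro ⟨hq, hqL⟩
        have hqp : q ≠ p := by
          rintro rfl
          exact hpL hqL
        by_cases hu : ρFp.IsUnramifiedAt q
        · exact Or.inr ⟨⟨hq, hqL⟩, hqp, hu⟩
        · exact Or.inl ⟨⟨hq, hqL⟩, hqp, hu⟩
    have hmod : ResModular 𝒪 ρbar (ribetLevel p Smin Piv) (Smin ∪ Piv) := by
      rw [hlev]
      exact hmodL
    obtain ⟨q, hq, S', hS'⟩ := hIAf p hp 𝒪 ρbar Smin hRH hflat Piv hPiv hne hroots' hmod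
    obtain ⟨⟨hqP, hqL⟩, -, -⟩ := (hPiv_mem q).mp hq
    rw [ribetLevel_erase_eq_div405 hq hqP.pos hlev] at hS'
    exact hmin q hqP hqL (backW405 hR3' p hp2 W hΔ hirr hcard hker 𝒪 ι S' hS')

end Fermat.Agent.S59.LO.H405
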